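import Mathlib

/-!
# S16 — abstract Weil-representation induction (pieces L-gs + L-ind of the route)

Let `p` be a prime, `D` a finite `ZMod p`-module with a quadratic form `Q`, and
`Θ : D → ℍ → ℂ` a family of functions with

* `(T)`  `Θ h ∣[2] T = 𝐞(Q h) • Θ h`,
* `(S)`  `Θ h ∣[2] S = -(1/p) • ∑ k, 𝐞(B(h,k)) • Θ k`   (`B` the polar form of `Q`),
* `Θ 0 ≠ 0`.

Then the Gauss sums `∑ k, 𝐞(u * Q k)` equal `-p` for `u ≠ 0`, and for every `γ ∈ SL(2,ℤ)`
`Θ 0 ∣[2] γ` is `Θ 0` if `p ∣ c`, and `-(1/p) • ∑ k, 𝐞((d/c) * Q k) • Θ k` otherwise.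
In particular `Θ 0` is invariant under `Γ₀(p)`, and if `Θ 0` is holomorphic and all `Θ k` are
bounded at `i∞`, then `Θ 0` is a modular form of weight `2` on `Γ₀(p)`.

Main declarations (namespace `Fermat.Agent.S16.H916`, Mathlib only, no nondegeneracy or
cardinality assumption on `(D, Q)`):

* `weilE p : ZMod p → ℂ` — the standard additive character `a ↦ exp (2πi a / p)`;
* `WeilFamily p Q Θ` — the hypotheses `(T)`, `(S)`, `Θ 0 ≠ 0` in slash form;
* `WeilFamily.of_pointwise`, `WeilFamily.of_pointwise_neg` — the same from the pointwise laws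
  `Θ_h(τ+1) = 𝐞(Q h) Θ_h(τ)`, `Θ_h(-1/τ) = -(τ²/p) ∑ k, 𝐞(± B(h,k)) Θ_k(τ)`;
* `gaussSumQ_one`, `gaussSumQ_eq` — the Gauss sums `∑ k, 𝐞(u Q(k)) = -p` for `u ≠ 0`;
* `weil_rat_relation` — rational relations between `p`-th roots of unity;
* `theta_zero_slash` — `Θ 0 ∣[2] γ = weilPhi Q Θ γ` for all `γ : SL(2, ℤ)`;
* `theta_zero_slash_Gamma0` — invariance of `Θ 0` under `Γ₀(p)`;
* `thetaZeroForm W hol hb : ModularForm (Gamma0 p) 2` with underlying function `Θ 0`.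
-/

set_option autoImplicit false

noncomputable section

namespace Fermat.Agent.S16.H916

open UpperHalfPlane ModularGroup ModularForm CongruenceSubgroup
open scoped MatrixGroups ModularForm Manifold

/-! ### Slash action: generalities -/

/-- In even weight, `-γ` acts like `γ`. -/
lemma weil_slash_neg (f : ℍ → ℂ) (γ : SL(2, ℤ)) : f ∣[(2 : ℤ)] (-γ) = f ∣[(2 : ℤ)] γ := by
  ext τ
  rw [SL_slash_apply, SL_slash_apply]
  have h1 : ((-γ : SL(2, ℤ)) • τ) = γ • τ := by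
    exact ModularGroup.SL_neg_smul γ τ
  have h2 : denom ((-γ : SL(2, ℤ)) : GL (Fin 2) ℝ) τ = - denom (γ : GL (Fin 2) ℝ) τ := by
    simp [denom]
    ring
  rw [h1, h2]
  congr 1
  rw [show (-(2 : ℤ)) = -2 from rfl, zpow_neg, zpow_neg]
  congr 1
  norm_cast
  ring

lemma weil_S_inv : (S⁻¹ : SL(2, ℤ)) = -S := by decide

lemma weil_ST_cube : ((S * T) ^ 3 : SL(2, ℤ)) = -1 := by decide

lemma weil_slash_S_inv (f : ℍ → ℂ) : f ∣[(2 : ℤ)] (S⁻¹ : SL(2, ℤ)) = f ∣[(2 : ℤ)] S := by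
  rw [weil_S_inv, weil_slash_neg]

lemma weil_slash_S_S (f : ℍ → ℂ) : (f ∣[(2 : ℤ)] S) ∣[(2 : ℤ)] S = f := by
  have h : (f ∣[(2 : ℤ)] S) ∣[(2 : ℤ)] (S⁻¹ : SL(2, ℤ)) = f := by
    rw [← SlashAction.slash_mul, mul_inv_cancel, SlashAction.slash_one]
  rwa [weil_slash_S_inv] at h

lemma weil_slash_ST_cube (f : ℍ → ℂ) : f ∣[(2 : ℤ)] ((S * T) ^ 3 : SL(2, ℤ)) = f := by
  rw [weil_ST_cube, weil_slash_neg, SlashAction.slash_one]

/-! ### The setting -/

section Setting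

variable {p : ℕ} [Fact p.Prime] {D : Type*} [AddCommGroup D] [Module (ZMod p) D] [Fintype D]

/-- The standard additive character of `ZMod p`. -/
def weilE (p : ℕ) [Fact p.Prime] (a : ZMod p) : ℂ := ZMod.stdAddChar (N := p) a

lemma weilE_zero : weilE p 0 = 1 := by
  simp [weilE]

lemma weilE_add (a b : ZMod p) : weilE p (a + b) = weilE p a * weilE p b := by
  simp [weilE, AddChar.map_add_eq_mul]

lemma weilE_ne_zero (a : ZMod p) : weilE p a ≠ 0 := by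
  intro h
  have := weilE_add (p := p) a (-a)
  rw [add_neg_cancel, weilE_zero, h, zero_mul] at this
  exact one_ne_zero this

lemma weilE_sum_mul (t : ZMod p) :
    ∑ a : ZMod p, weilE p (t * a) = if t = 0 then (p : ℂ) else 0 := by
  split_ifs with h
  · simp [h, weilE_zero]
  · have := AddChar.sum_mulShift (R := ZMod p) (R' := ℂ) t (ZMod.isPrimitive_stdAddChar p)
    simpa [weilE, h, mul_comm] using this

/-- The hypotheses on the family `Θ`. -/
structure WeilFamily (p : ℕ) [Fact p.Prime] {D : Type*} [AddCommGroup D] [Module (ZMod p) D]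
    [Fintype D] (Q : QuadraticForm (ZMod p) D) (Θ : D → ℍ → ℂ) : Prop where
  slash_T : ∀ h, Θ h ∣[(2 : ℤ)] T = weilE p (Q h) • Θ h
  slash_S : ∀ h, Θ h ∣[(2 : ℤ)] S =
    (-(p : ℂ)⁻¹) • ∑ k, weilE p (QuadraticMap.polar Q h k) • Θ k
  ne_zero : Θ 0 ≠ 0

end Setting

/-! ### Gauss combinations -/

section Comb

variable {p : ℕ} [Fact p.Prime] {D : Type*} [AddCommGroup D] [Module (ZMod p) D] [Fintype D]
variable (Q : QuadraticForm (ZMod p) D) (Θ : D → ℍ → ℂ)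

/-- The Gauss combination `∑ k, 𝐞(u Q(k)) Θ_k`. -/
def gaussComb (u : ZMod p) : ℍ → ℂ := ∑ k, weilE p (u * Q k) • Θ k

/-- The Gauss sum `∑ k, 𝐞(u Q(k))`. -/
def gaussSumQ (u : ZMod p) : ℂ := ∑ k, weilE p (u * Q k)

variable {Q Θ}

lemma gaussComb_slash_T (W : WeilFamily p Q Θ) (u : ZMod p) :
    gaussComb Q Θ u ∣[(2 : ℤ)] T = gaussComb Q Θ (u + 1) := by
  unfold gaussComb
  rw [SlashAction.sum_slash]
  refine Finset.sum_congr rfl fun k _ => ?_
  rw [SL_smul_slash, W.slash_T, smul_smul, ← weilE_add]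
  congr 2
  ring

lemma gaussComb_slash_T_inv (W : WeilFamily p Q Θ) (u : ZMod p) :
    gaussComb Q Θ u ∣[(2 : ℤ)] (T⁻¹ : SL(2, ℤ)) = gaussComb Q Θ (u - 1) := by
  have h := gaussComb_slash_T W (u - 1)
  rw [sub_add_cancel] at h
  rw [← h, ← SlashAction.slash_mul, mul_inv_cancel, SlashAction.slash_one]

lemma theta_zero_slash_T (W : WeilFamily p Q Θ) : Θ 0 ∣[(2 : ℤ)] T = Θ 0 := by
  rw [W.slash_T, map_zero, weilE_zero, one_smul]

lemma theta_zero_slash_T_inv (W : WeilFamily p Q Θ) :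
    Θ 0 ∣[(2 : ℤ)] (T⁻¹ : SL(2, ℤ)) = Θ 0 := by
  have h := theta_zero_slash_T W
  nth_rewrite 1 [← h]
  rw [← SlashAction.slash_mul, mul_inv_cancel, SlashAction.slash_one]

lemma theta_zero_slash_S (W : WeilFamily p Q Θ) :
    Θ 0 ∣[(2 : ℤ)] S = (-(p : ℂ)⁻¹) • gaussComb Q Θ 0 := by
  rw [W.slash_S]
  unfold gaussComb
  congr 1
  refine Finset.sum_congr rfl fun k _ => ?_
  simp [QuadraticMap.polar]

lemma weil_p_ne_zero : (p : ℂ) ≠ 0 := by
  exact_mod_cast (Fact.out : p.Prime).ne_zero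

lemma gaussComb_zero_slash_S (W : WeilFamily p Q Θ) :
    gaussComb Q Θ 0 ∣[(2 : ℤ)] S = (-(p : ℂ)) • Θ 0 := by
  have h := weil_slash_S_S (Θ 0)
  rw [theta_zero_slash_S W, SL_smul_slash] at h
  have hp := weil_p_ne_zero (p := p)
  calc gaussComb Q Θ 0 ∣[(2 : ℤ)] S
      = (-(p : ℂ)) • ((-(p : ℂ)⁻¹) • gaussComb Q Θ 0 ∣[(2 : ℤ)] S) := by
        rw [smul_smul]
        have : (-(p : ℂ)) * (-(p : ℂ)⁻¹) = 1 := by field_simp
        rw [this, one_smul]
    _ = (-(p : ℂ)) • Θ 0 := by rw [h]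

omit [Fintype D] in
/-- Completing the square. -/
lemma weil_complete_square (u : ZMod p) (hu : u ≠ 0) (k h : D) :
    u * Q k + QuadraticMap.polar Q k h = u * Q (k + u⁻¹ • h) - u⁻¹ * Q h := by
  rw [QuadraticMap.map_add Q k (u⁻¹ • h), QuadraticMap.map_smul, QuadraticMap.polar_smul_right]
  simp only [smul_eq_mul]
  field_simp
  ring

lemma gaussComb_slash_S (W : WeilFamily p Q Θ) (u : ZMod p) (hu : u ≠ 0) :
    gaussComb Q Θ u ∣[(2 : ℤ)] S =
      ((-(p : ℂ)⁻¹) * gaussSumQ Q u) • gaussComb Q Θ (-u⁻¹) := by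
  unfold gaussComb gaussSumQ
  rw [SlashAction.sum_slash]
  simp_rw [SL_smul_slash, W.slash_S, Finset.smul_sum, smul_smul]
  rw [Finset.sum_comm]
  refine Finset.sum_congr rfl fun h _ => ?_
  rw [← Finset.sum_smul]
  congr 1
  have key : ∀ k : D, weilE p (u * Q k) * (-(p : ℂ)⁻¹ * weilE p (QuadraticMap.polar Q k h)) =
      (-(p : ℂ)⁻¹ * weilE p (-u⁻¹ * Q h)) * weilE p (u * Q (k + u⁻¹ • h)) := by
    intro k
    have := weil_complete_square (Q := Q) u hu k h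
    have e1 : weilE p (u * Q k) * weilE p (QuadraticMap.polar Q k h) =
        weilE p (-u⁻¹ * Q h) * weilE p (u * Q (k + u⁻¹ • h)) := by
      rw [← weilE_add, ← weilE_add, this]
      congr 1
      ring
    calc _ = -(p : ℂ)⁻¹ * (weilE p (u * Q k) * weilE p (QuadraticMap.polar Q k h)) := by ring
      _ = _ := by rw [e1]; ring
  simp_rw [key]
  have shift : ∑ k : D, weilE p (u * Q (k + u⁻¹ • h)) = ∑ k : D, weilE p (u * Q k) :=
    Fintype.sum_equiv (Equiv.addRight (u⁻¹ • h)) _ _ (fun k => rfl)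
  rw [← Finset.mul_sum, shift]
  ring

end Comb

/-! ### Rational relations between roots of unity -/

section Roots

open Polynomial

/-- Sum over `ZMod p` as a sum over `range p`. -/
lemma weil_sum_zmod_eq_sum_range {p : ℕ} [NeZero p] {M : Type*} [AddCommMonoid M]
    (f : ZMod p → M) : ∑ a : ZMod p, f a = ∑ j ∈ Finset.range p, f (j : ZMod p) := by
  refine Finset.sum_nbij' (fun a => a.val) (fun j => (j : ZMod p)) ?_ ?_ ?_ ?_ ?_
  · intro a _
    exact Finset.mem_range.mpr (ZMod.val_lt a)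
  · intro j _
    exact Finset.mem_univ _
  · intro a _
    exact ZMod.natCast_zmod_val a
  · intro j hj
    exact ZMod.val_natCast_of_lt (Finset.mem_range.mp hj)
  · intro a _
    rw [ZMod.natCast_zmod_val]

/-- Rational linear relations between the `p`-th roots of unity: if `∑ c_a ζ^a = 0` with
rational `c_a`, then all `c_a` are equal. -/
lemma weil_rat_relation {p : ℕ} [Fact p.Prime] (c : ZMod p → ℚ)
    (h : ∑ a : ZMod p, (c a : ℂ) * (ZMod.stdAddChar (N := p) a : ℂ) = 0) (a : ZMod p) :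
    c a = c 0 := by
  have hp : p.Prime := Fact.out
  set ζ : ℂ := Complex.exp (2 * Real.pi * Complex.I / p) with hζdef
  have hζ : IsPrimitiveRoot ζ p := Complex.isPrimitiveRoot_exp p hp.ne_zero
  have he : ∀ j : ℕ, (ZMod.stdAddChar (N := p) (j : ZMod p) : ℂ) = ζ ^ j := by
    intro j
    have := ZMod.stdAddChar_coe (N := p) (j : ℤ)
    simp only [Int.cast_natCast] at this
    rw [this, hζdef, ← Complex.exp_nat_mul]
    congr 1
    ring
  set P : ℚ[X] := ∑ j ∈ Finset.range p, C (c (j : ZMod p)) * X ^ j with hP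
  have hcoeff : ∀ j, j < p → P.coeff j = c (j : ZMod p) := by
    intro j hj
    rw [hP, Polynomial.finsetSum_coeff]
    simp only [Polynomial.coeff_C_mul_X_pow]
    rw [Finset.sum_eq_single j]
    · simp
    · intro b _ hb
      rw [if_neg (Ne.symm hb)]
    · intro hj'
      exact absurd (Finset.mem_range.mpr hj) hj'
  have hdeg : P.natDegree < p := by
    have h1 : P.natDegree ≤ p - 1 := by
      rw [hP]
      refine Polynomial.natDegree_sum_le_of_forall_le _ _ ?_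
      intro j hj
      refine (Polynomial.natDegree_C_mul_X_pow_le _ _).trans ?_
      have := Finset.mem_range.mp hj
      omega
    have := hp.pos
    omega
  have haeval : Polynomial.aeval ζ P = 0 := by
    rw [hP, map_sum]
    rw [weil_sum_zmod_eq_sum_range] at h
    rw [← h]
    refine Finset.sum_congr rfl fun j _ => ?_
    rw [he j]
    simp [Polynomial.aeval_C]
  have hdvd : cyclotomic p ℚ ∣ P := by
    rw [Polynomial.cyclotomic_eq_minpoly_rat hζ hp.pos]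
    exact minpoly.dvd ℚ ζ haeval
  obtain ⟨R, hR⟩ := hdvd
  have hΦ : cyclotomic p ℚ = ∑ i ∈ Finset.range p, X ^ i := Polynomial.cyclotomic_prime ℚ p
  have hΦcoeff : ∀ j, j < p → (cyclotomic p ℚ).coeff j = 1 := by
    intro j hj
    rw [hΦ, Polynomial.finsetSum_coeff]
    simp only [Polynomial.coeff_X_pow]
    rw [Finset.sum_eq_single j]
    · simp
    · intro b _ hb
      rw [if_neg (Ne.symm hb)]
    · intro hj'
      exact absurd (Finset.mem_range.mpr hj) hj'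
  have hΦdeg : (cyclotomic p ℚ).natDegree = p - 1 := by
    rw [Polynomial.natDegree_cyclotomic, Nat.totient_prime hp]
  have key : ∀ j, j < p → P.coeff j = R.coeff 0 := by
    by_cases hR0 : R = 0
    · intro j hj
      rw [hR, hR0, mul_zero]
      simp
    · have hmul : P.natDegree = (cyclotomic p ℚ).natDegree + R.natDegree := by
        rw [hR]
        exact Polynomial.natDegree_mul (Polynomial.cyclotomic_ne_zero p ℚ) hR0
      have hRdeg : R.natDegree = 0 := by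
        rw [hΦdeg] at hmul
        have := hp.pos
        omega
      have hRC : R = C (R.coeff 0) := Polynomial.eq_C_of_natDegree_eq_zero hRdeg
      intro j hj
      rw [hR, hRC, Polynomial.coeff_mul_C, hΦcoeff j hj, one_mul]
      simp
  have h0 : c 0 = R.coeff 0 := by
    have := key 0 hp.pos
    rw [hcoeff 0 hp.pos] at this
    simpa using this
  have ha : c a = R.coeff 0 := by
    have := key a.val (ZMod.val_lt a)
    rw [hcoeff a.val (ZMod.val_lt a), ZMod.natCast_zmod_val] at this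
    exact this
  rw [ha, h0]

end Roots

/-! ### The Gauss sums -/

section Gauss

variable {p : ℕ} [Fact p.Prime] {D : Type*} [AddCommGroup D] [Module (ZMod p) D] [Fintype D]
variable {Q : QuadraticForm (ZMod p) D} {Θ : D → ℍ → ℂ}

/-- The relation `(ST)³ = -1` forces the Gauss sum `∑ k, 𝐞(Q k)` to be `-p`. -/
lemma gaussSumQ_one (W : WeilFamily p Q Θ) : gaussSumQ Q 1 = -(p : ℂ) := by
  have h := weil_slash_ST_cube (Θ 0)
  have e : ((S * T) ^ 3 : SL(2, ℤ)) = S * T * S * T * S * T := by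
    simp [pow_succ, mul_assoc]
  have hp := weil_p_ne_zero (p := p)
  rw [e] at h
  simp only [SlashAction.slash_mul] at h
  have f1 := theta_zero_slash_S W
  have f2 : (Θ 0 ∣[(2 : ℤ)] S) ∣[(2 : ℤ)] T = (-(p : ℂ)⁻¹) • gaussComb Q Θ 1 := by
    rw [f1, SL_smul_slash, gaussComb_slash_T W, zero_add]
  have f3 : ((Θ 0 ∣[(2 : ℤ)] S) ∣[(2 : ℤ)] T) ∣[(2 : ℤ)] S =
      (-(p : ℂ)⁻¹ * (-(p : ℂ)⁻¹ * gaussSumQ Q 1)) • gaussComb Q Θ (-1) := by
    rw [f2, SL_smul_slash, gaussComb_slash_S W 1 one_ne_zero, smul_smul, inv_one]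
  have f4 : (((Θ 0 ∣[(2 : ℤ)] S) ∣[(2 : ℤ)] T) ∣[(2 : ℤ)] S) ∣[(2 : ℤ)] T =
      (-(p : ℂ)⁻¹ * (-(p : ℂ)⁻¹ * gaussSumQ Q 1)) • gaussComb Q Θ 0 := by
    rw [f3, SL_smul_slash, gaussComb_slash_T W, neg_add_cancel]
  have f5 : ((((Θ 0 ∣[(2 : ℤ)] S) ∣[(2 : ℤ)] T) ∣[(2 : ℤ)] S) ∣[(2 : ℤ)] T) ∣[(2 : ℤ)] S =
      (-(p : ℂ)⁻¹ * (-(p : ℂ)⁻¹ * gaussSumQ Q 1) * (-(p : ℂ))) • Θ 0 := by
    rw [f4, SL_smul_slash, gaussComb_zero_slash_S W, smul_smul]
  have f6 : (((((Θ 0 ∣[(2 : ℤ)] S) ∣[(2 : ℤ)] T) ∣[(2 : ℤ)] S) ∣[(2 : ℤ)] T) ∣[(2 : ℤ)] S)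
      ∣[(2 : ℤ)] T = (-(p : ℂ)⁻¹ * (-(p : ℂ)⁻¹ * gaussSumQ Q 1) * (-(p : ℂ))) • Θ 0 := by
    rw [f5, SL_smul_slash, theta_zero_slash_T W]
  rw [f6] at h
  have h2 : (-(p : ℂ)⁻¹ * (-(p : ℂ)⁻¹ * gaussSumQ Q 1) * (-(p : ℂ)) - 1) • Θ 0 = 0 := by
    rw [sub_smul, one_smul, h, sub_self]
  rcases smul_eq_zero.mp h2 with h3 | h3
  · have h4 : -(p : ℂ)⁻¹ * (-(p : ℂ)⁻¹ * gaussSumQ Q 1) * (-(p : ℂ)) = 1 := by
      linear_combination h3
    field_simp at h4
    linear_combination -h4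
  · exact absurd h3 W.ne_zero


open Classical in
/-- The Gauss sum in terms of the fibre cardinalities of `Q`. -/
lemma gaussSumQ_eq_sum_fiber (Q : QuadraticForm (ZMod p) D) (u : ZMod p) :
    gaussSumQ Q u =
      ∑ a : ZMod p, ((Finset.univ.filter fun k : D => Q k = a).card : ℂ) * weilE p (u * a) := by
  unfold gaussSumQ
  rw [← Finset.sum_fiberwise (Finset.univ : Finset D) (fun k => Q k) (fun k => weilE p (u * Q k))]
  refine Finset.sum_congr rfl fun a _ => ?_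
  rw [Finset.sum_congr rfl (fun k hk => by rw [(Finset.mem_filter.mp hk).2] :
    ∀ k ∈ Finset.univ.filter (fun k : D => Q k = a), weilE p (u * Q k) = weilE p (u * a))]
  rw [Finset.sum_const, nsmul_eq_mul]

/-- All the Gauss sums `∑ k, 𝐞(u Q(k))`, `u ≠ 0`, are equal to `-p`. -/
theorem gaussSumQ_eq (W : WeilFamily p Q Θ) (u : ZMod p) (hu : u ≠ 0) :
    gaussSumQ Q u = -(p : ℂ) := by
  classical
  set N : ZMod p → ℕ := fun a => (Finset.univ.filter fun k : D => Q k = a).card with hN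
  have hfib : ∀ v : ZMod p, gaussSumQ Q v = ∑ a : ZMod p, (N a : ℂ) * weilE p (v * a) :=
    fun v => gaussSumQ_eq_sum_fiber Q v
  set c : ZMod p → ℚ := fun a => (N a : ℚ) + if a = 0 then (p : ℚ) else 0 with hc
  have hsum : ∀ v : ZMod p, ∑ a : ZMod p, (c a : ℂ) * weilE p (v * a) = gaussSumQ Q v + p := by
    intro v
    rw [hfib v]
    simp only [hc]
    push_cast
    simp_rw [add_mul]
    rw [Finset.sum_add_distrib]
    congr 1
    rw [Finset.sum_eq_single (0 : ZMod p)]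
    · simp [weilE_zero]
    · intro b _ hb
      simp [hb]
    · intro h0
      exact absurd (Finset.mem_univ _) h0
  have h1 : ∑ a : ZMod p, (c a : ℂ) * (ZMod.stdAddChar (N := p) a : ℂ) = 0 := by
    have := hsum 1
    simp only [one_mul] at this
    rw [gaussSumQ_one W, neg_add_cancel] at this
    exact this
  have hconst := weil_rat_relation c h1
  have h2 := hsum u
  have h3 : ∑ a : ZMod p, (c a : ℂ) * weilE p (u * a) = 0 := by
    simp_rw [hconst]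
    rw [← Finset.mul_sum, weilE_sum_mul, if_neg hu, mul_zero]
  rw [h3] at h2
  linear_combination -h2

end Gauss

/-! ### Matrix entries -/

section Entries

lemma weil_mul_T_10 (γ : SL(2, ℤ)) : (γ * T) 1 0 = γ 1 0 := by
  show (↑(γ * T) : Matrix (Fin 2) (Fin 2) ℤ) 1 0 = (↑γ : Matrix (Fin 2) (Fin 2) ℤ) 1 0
  rw [Matrix.SpecialLinearGroup.coe_mul, coe_T]
  simp [Matrix.mul_apply, Fin.sum_univ_two]

lemma weil_mul_T_11 (γ : SL(2, ℤ)) : (γ * T) 1 1 = γ 1 0 + γ 1 1 := by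
  show (↑(γ * T) : Matrix (Fin 2) (Fin 2) ℤ) 1 1 = (↑γ : Matrix (Fin 2) (Fin 2) ℤ) 1 0 +
    (↑γ : Matrix (Fin 2) (Fin 2) ℤ) 1 1
  rw [Matrix.SpecialLinearGroup.coe_mul, coe_T]
  simp [Matrix.mul_apply, Fin.sum_univ_two]

lemma weil_mul_T_inv_10 (γ : SL(2, ℤ)) : (γ * T⁻¹) 1 0 = γ 1 0 := by
  show (↑(γ * T⁻¹) : Matrix (Fin 2) (Fin 2) ℤ) 1 0 = (↑γ : Matrix (Fin 2) (Fin 2) ℤ) 1 0
  rw [Matrix.SpecialLinearGroup.coe_mul, coe_T_inv]
  simp [Matrix.mul_apply, Fin.sum_univ_two]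

lemma weil_mul_T_inv_11 (γ : SL(2, ℤ)) : (γ * T⁻¹) 1 1 = γ 1 1 - γ 1 0 := by
  show (↑(γ * T⁻¹) : Matrix (Fin 2) (Fin 2) ℤ) 1 1 = (↑γ : Matrix (Fin 2) (Fin 2) ℤ) 1 1 -
    (↑γ : Matrix (Fin 2) (Fin 2) ℤ) 1 0
  rw [Matrix.SpecialLinearGroup.coe_mul, coe_T_inv]
  simp [Matrix.mul_apply, Fin.sum_univ_two]
  ring

lemma weil_mul_S_10 (γ : SL(2, ℤ)) : (γ * S) 1 0 = γ 1 1 := by
  show (↑(γ * S) : Matrix (Fin 2) (Fin 2) ℤ) 1 0 = (↑γ : Matrix (Fin 2) (Fin 2) ℤ) 1 1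
  rw [Matrix.SpecialLinearGroup.coe_mul, coe_S]
  simp [Matrix.mul_apply, Fin.sum_univ_two]

lemma weil_mul_S_11 (γ : SL(2, ℤ)) : (γ * S) 1 1 = -γ 1 0 := by
  show (↑(γ * S) : Matrix (Fin 2) (Fin 2) ℤ) 1 1 = -(↑γ : Matrix (Fin 2) (Fin 2) ℤ) 1 0
  rw [Matrix.SpecialLinearGroup.coe_mul, coe_S]
  simp [Matrix.mul_apply, Fin.sum_univ_two]

lemma weil_neg_10 (γ : SL(2, ℤ)) : (-γ) 1 0 = -γ 1 0 := by
  show (↑(-γ) : Matrix (Fin 2) (Fin 2) ℤ) 1 0 = -(↑γ : Matrix (Fin 2) (Fin 2) ℤ) 1 0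
  rw [Matrix.SpecialLinearGroup.coe_neg]
  simp

lemma weil_neg_11 (γ : SL(2, ℤ)) : (-γ) 1 1 = -γ 1 1 := by
  show (↑(-γ) : Matrix (Fin 2) (Fin 2) ℤ) 1 1 = -(↑γ : Matrix (Fin 2) (Fin 2) ℤ) 1 1
  rw [Matrix.SpecialLinearGroup.coe_neg]
  simp

lemma weil_det (γ : SL(2, ℤ)) : γ 0 0 * γ 1 1 - γ 0 1 * γ 1 0 = 1 := by
  have := γ.det_coe
  rw [Matrix.det_fin_two] at this
  exact this

lemma weil_d_ne_zero {p : ℕ} [Fact p.Prime] (γ : SL(2, ℤ)) (hc : ((γ 1 0 : ℤ) : ZMod p) = 0) :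
    ((γ 1 1 : ℤ) : ZMod p) ≠ 0 := by
  intro hd
  have h := congrArg (Int.cast : ℤ → ZMod p) (weil_det γ)
  push_cast at h
  rw [hc, hd] at h
  simp at h

end Entries

/-! ### The induction over words in `S`, `T` -/

section Induction

variable {p : ℕ} [Fact p.Prime] {D : Type*} [AddCommGroup D] [Module (ZMod p) D] [Fintype D]
variable (Q : QuadraticForm (ZMod p) D) (Θ : D → ℍ → ℂ)

/-- The predicted value of `Θ 0 ∣[2] γ`. -/
def weilPhi (γ : SL(2, ℤ)) : ℍ → ℂ :=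
  if ((γ 1 0 : ℤ) : ZMod p) = 0 then Θ 0
  else (-(p : ℂ)⁻¹) • gaussComb Q Θ (((γ 1 1 : ℤ) : ZMod p) / ((γ 1 0 : ℤ) : ZMod p))

variable {Q Θ}

lemma weilPhi_one : weilPhi Q Θ (1 : SL(2, ℤ)) = Θ 0 := by
  unfold weilPhi
  rw [if_pos]
  simp

lemma weilPhi_neg (γ : SL(2, ℤ)) : weilPhi Q Θ (-γ) = weilPhi Q Θ γ := by
  unfold weilPhi
  rw [weil_neg_10, weil_neg_11]
  push_cast
  by_cases hc : ((γ 1 0 : ℤ) : ZMod p) = 0
  · rw [if_pos hc, if_pos (by rw [hc, neg_zero])]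
  · rw [if_neg hc, if_neg (by rwa [neg_eq_zero]), neg_div_neg_eq]

lemma weilPhi_mul_T (W : WeilFamily p Q Θ) (γ : SL(2, ℤ)) :
    weilPhi Q Θ γ ∣[(2 : ℤ)] T = weilPhi Q Θ (γ * T) := by
  unfold weilPhi
  rw [weil_mul_T_10, weil_mul_T_11]
  by_cases hc : ((γ 1 0 : ℤ) : ZMod p) = 0
  · rw [if_pos hc, if_pos hc, theta_zero_slash_T W]
  · rw [if_neg hc, if_neg hc, SL_smul_slash, gaussComb_slash_T W]
    congr 2
    push_cast
    field_simp
    ring

lemma weilPhi_mul_T_inv (W : WeilFamily p Q Θ) (γ : SL(2, ℤ)) :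
    weilPhi Q Θ γ ∣[(2 : ℤ)] (T⁻¹ : SL(2, ℤ)) = weilPhi Q Θ (γ * T⁻¹) := by
  unfold weilPhi
  rw [weil_mul_T_inv_10, weil_mul_T_inv_11]
  by_cases hc : ((γ 1 0 : ℤ) : ZMod p) = 0
  · rw [if_pos hc, if_pos hc, theta_zero_slash_T_inv W]
  · rw [if_neg hc, if_neg hc, SL_smul_slash, gaussComb_slash_T_inv W]
    congr 2
    push_cast
    field_simp

lemma weilPhi_mul_S (W : WeilFamily p Q Θ) (γ : SL(2, ℤ)) :
    weilPhi Q Θ γ ∣[(2 : ℤ)] S = weilPhi Q Θ (γ * S) := by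
  have hp := weil_p_ne_zero (p := p)
  unfold weilPhi
  rw [weil_mul_S_10, weil_mul_S_11]
  by_cases hc : ((γ 1 0 : ℤ) : ZMod p) = 0
  · have hd := weil_d_ne_zero γ hc
    rw [if_pos hc, if_neg hd, theta_zero_slash_S W]
    push_cast
    rw [hc, neg_zero, zero_div]
  · rw [if_neg hc]
    by_cases hd : ((γ 1 1 : ℤ) : ZMod p) = 0
    · rw [if_pos hd, hd, zero_div, SL_smul_slash, gaussComb_zero_slash_S W, smul_smul]
      have : (-(p : ℂ)⁻¹) * (-(p : ℂ)) = 1 := by field_simp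
      rw [this, one_smul]
    · rw [if_neg hd, SL_smul_slash, gaussComb_slash_S W _ (div_ne_zero hd hc),
        gaussSumQ_eq W _ (div_ne_zero hd hc), smul_smul]
      have : (-(p : ℂ)⁻¹) * ((-(p : ℂ)⁻¹) * (-(p : ℂ))) = -(p : ℂ)⁻¹ := by field_simp
      rw [this]
      congr 2
      push_cast
      field_simp

lemma weilPhi_mul_S_inv (W : WeilFamily p Q Θ) (γ : SL(2, ℤ)) :
    weilPhi Q Θ γ ∣[(2 : ℤ)] (S⁻¹ : SL(2, ℤ)) = weilPhi Q Θ (γ * S⁻¹) := by
  rw [weil_slash_S_inv, weilPhi_mul_S W, weil_S_inv, mul_neg, weilPhi_neg]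

/-- **Main induction**: the action of all of `SL(2,ℤ)` on `Θ 0`. -/
theorem theta_zero_slash (W : WeilFamily p Q Θ) (γ : SL(2, ℤ)) :
    Θ 0 ∣[(2 : ℤ)] γ = weilPhi Q Θ γ := by
  have hγ : γ ∈ Subgroup.closure ({S, T} : Set SL(2, ℤ)) := by
    rw [_root_.SpecialLinearGroup.SL2Z_generators]
    exact Subgroup.mem_top γ
  induction hγ using Subgroup.closure_induction_right with
  | one => rw [SlashAction.slash_one, weilPhi_one]
  | mul_right x _ y hy ih =>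
    rw [SlashAction.slash_mul, ih]
    rcases hy with rfl | hy
    · exact weilPhi_mul_S W x
    · rw [Set.mem_singleton_iff] at hy
      subst hy
      exact weilPhi_mul_T W x
  | mul_inv_cancel x _ y hy ih =>
    rw [SlashAction.slash_mul, ih]
    rcases hy with rfl | hy
    · exact weilPhi_mul_S_inv W x
    · rw [Set.mem_singleton_iff] at hy
      subst hy
      exact weilPhi_mul_T_inv W x

/-- `Θ 0` is invariant under `Γ₀(p)`. -/
theorem theta_zero_slash_Gamma0 (W : WeilFamily p Q Θ) (γ : SL(2, ℤ)) (hγ : γ ∈ Gamma0 p) :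
    Θ 0 ∣[(2 : ℤ)] γ = Θ 0 := by
  rw [theta_zero_slash W, weilPhi, if_pos]
  exact Gamma0_mem.mp hγ

end Induction

/-! ### Packaging as a modular form -/

section Form

variable {p : ℕ} [Fact p.Prime] {D : Type*} [AddCommGroup D] [Module (ZMod p) D] [Fintype D]
variable {Q : QuadraticForm (ZMod p) D} {Θ : D → ℍ → ℂ}

lemma gaussComb_isBoundedAtImInfty (hb : ∀ k, IsBoundedAtImInfty (Θ k)) (u : ZMod p) :
    IsBoundedAtImInfty (gaussComb Q Θ u) := by
  unfold gaussComb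
  have : ∀ s : Finset D, IsBoundedAtImInfty (∑ k ∈ s, weilE p (u * Q k) • Θ k) := by
    intro s
    classical
    induction s using Finset.induction_on with
    | empty =>
      rw [Finset.sum_empty]
      exact Filter.const_boundedAtFilter _ (0 : ℂ)
    | insert a s ha ih =>
      rw [Finset.sum_insert ha]
      exact ((hb a).const_smul_left _).add ih
  exact this _

lemma weilPhi_isBoundedAtImInfty (hb : ∀ k, IsBoundedAtImInfty (Θ k)) (γ : SL(2, ℤ)) :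
    IsBoundedAtImInfty (weilPhi Q Θ γ) := by
  unfold weilPhi
  split_ifs
  · exact hb 0
  · exact (gaussComb_isBoundedAtImInfty hb _).const_smul_left _

/-- `Θ 0` as a modular form of weight `2` on `Γ₀(p)`. -/
def thetaZeroForm (W : WeilFamily p Q Θ) (hol : MDiff (Θ 0))
    (hb : ∀ k, IsBoundedAtImInfty (Θ k)) : ModularForm (Gamma0 p) 2 where
  toFun := Θ 0
  slash_action_eq' := by
    rintro _ ⟨γ, hγ, rfl⟩
    exact theta_zero_slash_Gamma0 W γ hγ
  holo' := hol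
  bdd_at_cusps' {c} hc := by
    rw [Subgroup.IsArithmetic.isCusp_iff_isCusp_SL2Z] at hc
    rw [OnePoint.isBoundedAt_iff_forall_SL2Z hc]
    intro γ _
    rw [theta_zero_slash W γ]
    exact weilPhi_isBoundedAtImInfty hb γ

@[simp] lemma thetaZeroForm_coe (W : WeilFamily p Q Θ) (hol : MDiff (Θ 0))
    (hb : ∀ k, IsBoundedAtImInfty (Θ k)) : (thetaZeroForm W hol hb : ℍ → ℂ) = Θ 0 := rfl

end Form

/-! ### Pointwise forms of the hypotheses -/

section Pointwise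

variable {p : ℕ} [Fact p.Prime] {D : Type*} [AddCommGroup D] [Module (ZMod p) D] [Fintype D]
variable {Q : QuadraticForm (ZMod p) D} {Θ : D → ℍ → ℂ}

lemma weil_slash_T_apply (f : ℍ → ℂ) (τ : ℍ) : (f ∣[(2 : ℤ)] T) τ = f (T • τ) := by
  rw [SL_slash_apply]
  have : denom (T : SL(2, ℤ)) τ = 1 := by
    simp [denom, coe_T]
  rw [this, one_zpow, mul_one]

lemma weil_slash_S_apply (f : ℍ → ℂ) (τ : ℍ) :
    (f ∣[(2 : ℤ)] S) τ = f (S • τ) * ((τ : ℂ) ^ 2)⁻¹ := by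
  rw [SL_slash_apply]
  have : denom (S : SL(2, ℤ)) τ = τ := by
    simp [denom, coe_S]
  rw [this, zpow_neg]
  norm_cast

/-- The hypotheses in pointwise form: `Θ_h(τ + 1) = 𝐞(Q h) Θ_h(τ)` and
`Θ_h(-1/τ) = -(τ² / p) ∑ k, 𝐞(B(h,k)) Θ_k(τ)`. -/
theorem WeilFamily.of_pointwise
    (hT : ∀ h τ, Θ h (T • τ) = weilE p (Q h) * Θ h τ)
    (hS : ∀ h (τ : ℍ), Θ h (S • τ) =
      -(p : ℂ)⁻¹ * (τ : ℂ) ^ 2 * ∑ k, weilE p (QuadraticMap.polar Q h k) * Θ k τ)
    (h0 : Θ 0 ≠ 0) : WeilFamily p Q Θ where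
  slash_T h := by
    ext τ
    rw [weil_slash_T_apply, hT]
    rfl
  slash_S h := by
    ext τ
    rw [weil_slash_S_apply, hS]
    have hτ : (τ : ℂ) ≠ 0 := UpperHalfPlane.ne_zero τ
    have hp := weil_p_ne_zero (p := p)
    simp only [Pi.smul_apply, Finset.sum_apply, smul_eq_mul]
    field_simp
  ne_zero := h0

/-- Variant of `WeilFamily.of_pointwise` with the sign convention
`Θ_h(-1/τ) = -(τ² / p) ∑ k, 𝐞(-B(h,k)) Θ_k(τ)`, for an even family `Θ (-k) = Θ k`. -/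
theorem WeilFamily.of_pointwise_neg
    (hT : ∀ h τ, Θ h (T • τ) = weilE p (Q h) * Θ h τ)
    (hS : ∀ h (τ : ℍ), Θ h (S • τ) =
      -(p : ℂ)⁻¹ * (τ : ℂ) ^ 2 * ∑ k, weilE p (-QuadraticMap.polar Q h k) * Θ k τ)
    (heven : ∀ k, Θ (-k) = Θ k)
    (h0 : Θ 0 ≠ 0) : WeilFamily p Q Θ := by
  refine WeilFamily.of_pointwise hT (fun h τ => ?_) h0
  rw [hS]
  congr 1
  refine Fintype.sum_equiv (Equiv.neg D) _ _ (fun k => ?_)
  simp only [Equiv.neg_apply]
  rw [heven, QuadraticMap.polar_neg_right]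

end Pointwise

end Fermat.Agent.S16.H916
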